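import Fermat.Agent.LT.Adelic.Hyperbolic
import Mathlib.Analysis.SpecialFunctions.JapaneseBracket
import Mathlib.MeasureTheory.Measure.Lebesgue.Complex
import Mathlib.MeasureTheory.Measure.Haar.NormedSpace
import Mathlib.LinearAlgebra.Complex.FiniteDimensional
import Mathlib.Analysis.SpecialFunctions.ImproperIntegrals
import Mathlib.Analysis.SpecialFunctions.Exp
import Mathlib.MeasureTheory.Integral.Prod

/-!
# Integrability of point-pair kernels of quartic decay
-/

set_option autoImplicit false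

noncomputable section

open MeasureTheory Set Complex
open scoped Real

namespace Fermat.Agent.LT.Arch

open Adelic

/-- `k u = O(u⁻⁴)` on `[1, ∞)`. -/
def IsQuartic {E : Type*} [NormedAddCommGroup E] (k : ℝ → E) : Prop :=
  ∃ C : ℝ, 0 ≤ C ∧ ∀ u : ℝ, 1 ≤ u → ‖k u‖ ≤ C / u ^ 4

/-- The standard argument of a kernel. -/
def argU (A R ρ r : ℝ) : ℝ := (A + R ^ 2 + r ^ 2) / (2 * ρ * r)

theorem one_le_argU {A R ρ r : ℝ} (hA : 0 ≤ A) (hρ : 0 < ρ) (hρR : ρ ≤ R) (hr : 0 < r) :
    1 ≤ argU A R ρ r := by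
  rw [argU, le_div_iff₀ (by positivity), one_mul]
  nlinarith [sq_nonneg (R - r), mul_le_mul_of_nonneg_right hρR hr.le]

theorem coshDist_eq_argU (p q : HSpace) :
    HSpace.coshDist p q = argU (normSq (p.z - q.z)) p.r p.r q.r := rfl

theorem norm_le_of_isQuartic {E : Type*} [NormedAddCommGroup E] {k : ℝ → E} {C : ℝ} (hC : 0 ≤ C)
    (hk : ∀ u : ℝ, 1 ≤ u → ‖k u‖ ≤ C / u ^ 4) {A R ρ r : ℝ} (hA : 0 ≤ A) (hρ : 0 < ρ)
    (hρR : ρ ≤ R) (hr : 0 < r) :
    ‖k (argU A R ρ r)‖ ≤ C * (2 * ρ) ^ 4 * (((R ^ 2 + A) ^ 2)⁻¹ * (r ^ 4 / (R ^ 2 + r ^ 2) ^ 2)) := by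
  have hR : 0 < R := hρ.trans_le hρR
  refine (hk _ (one_le_argU hA hρ hρR hr)).trans ?_
  rw [argU, div_pow, div_div_eq_mul_div, show C * (2 * ρ) ^ 4 *
    (((R ^ 2 + A) ^ 2)⁻¹ * (r ^ 4 / (R ^ 2 + r ^ 2) ^ 2)) =
      C * (2 * ρ * r) ^ 4 / ((R ^ 2 + A) ^ 2 * (R ^ 2 + r ^ 2) ^ 2) by field_simp]
  refine div_le_div_of_nonneg_left (by positivity) (by positivity) ?_
  rw [← mul_pow, show (A + R ^ 2 + r ^ 2) ^ 4 = ((A + R ^ 2 + r ^ 2) ^ 2) ^ 2 by ring]
  refine pow_le_pow_left₀ (by positivity) ?_ 2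
  nlinarith [mul_le_mul (show R ^ 2 + A ≤ A + R ^ 2 + r ^ 2 by nlinarith)
    (show R ^ 2 + r ^ 2 ≤ A + R ^ 2 + r ^ 2 by linarith) (by positivity) (by positivity)]

theorem integrable_inv_sq_norm_sq {E : Type*} [NormedAddCommGroup E] [NormedSpace ℝ E]
    [FiniteDimensional ℝ E] [MeasurableSpace E] [BorelSpace E] (μ : Measure E) [μ.IsAddHaarMeasure]
    (hd : Module.finrank ℝ E < 4) {R : ℝ} (hR : 0 < R) :
    Integrable (fun x : E => ((R ^ 2 + ‖x‖ ^ 2) ^ 2)⁻¹) μ := by
  set c := min 1 (R ^ 2)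
  have hc : 0 < c := lt_min one_pos (by positivity)
  refine ((integrable_rpow_neg_one_add_norm_sq (μ := μ) (r := 4) (by exact_mod_cast hd)).const_mul
    (c ^ 2)⁻¹).mono' ?_ (Filter.Eventually.of_forall fun x => ?_)
  · exact (Continuous.inv₀ (by fun_prop) fun x => by positivity).aestronglyMeasurable
  · have h1 : c * (1 + ‖x‖ ^ 2) ≤ R ^ 2 + ‖x‖ ^ 2 := by
      nlinarith [min_le_left (1 : ℝ) (R ^ 2), min_le_right (1 : ℝ) (R ^ 2), sq_nonneg ‖x‖]
    rw [show (-4 : ℝ) / 2 = -((2 : ℕ) : ℝ) by norm_num, Real.rpow_neg (by positivity),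
      Real.rpow_natCast, Real.norm_of_nonneg (by positivity), ← mul_inv, ← mul_pow]
    exact inv_anti₀ (by positivity) (pow_le_pow_left₀ (by positivity) h1 2)

theorem integrableOn_pow_div_sq {R : ℝ} (hR : 0 < R) {j : ℕ} (hj : j ≤ 2) :
    IntegrableOn (fun r : ℝ => r ^ j / (R ^ 2 + r ^ 2) ^ 2) (Ioi 0) := by
  set c := min 1 (R ^ 2)
  have hc : 0 < c := lt_min one_pos (by positivity)
  refine ((integrable_inv_one_add_sq.const_mul (2 / c ^ 2)).integrableOn).mono' ?_ ?_
  · exact (Continuous.div (by fun_prop) (by fun_prop) fun r => by positivity).aestronglyMeasurable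
  · filter_upwards [ae_restrict_mem measurableSet_Ioi] with r (hr : 0 < r)
    have h1 : c * (1 + r ^ 2) ≤ R ^ 2 + r ^ 2 := by
      nlinarith [min_le_left (1 : ℝ) (R ^ 2), min_le_right (1 : ℝ) (R ^ 2), sq_nonneg r]
    have h2 : r ^ j ≤ 2 * (1 + r ^ 2) := by interval_cases j <;> nlinarith [sq_nonneg (r - 1)]
    rw [Real.norm_of_nonneg (by positivity)]
    calc r ^ j / (R ^ 2 + r ^ 2) ^ 2 ≤ 2 * (1 + r ^ 2) / (c * (1 + r ^ 2)) ^ 2 :=
          div_le_div₀ (by positivity) h2 (by positivity) (pow_le_pow_left₀ (by positivity) h1 2)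
      _ = 2 / c ^ 2 * (1 + r ^ 2)⁻¹ := by field_simp

theorem integrable_hspace {G : ℂ × ℝ → ℂ}
    (h : IntegrableOn (fun x => (x.2 ^ 3)⁻¹ • G x) {x : ℂ × ℝ | 0 < x.2}) :
    Integrable (fun τ : HSpace => G τ.coords) HSpace.measure := by
  have hmeas : MeasurableSet {x : ℂ × ℝ | 0 < x.2} :=
    (isOpen_lt continuous_const continuous_snd).measurableSet
  show Integrable (G ∘ HSpace.coords) _
  rw [← HSpace.measurableEmbedding_coords.integrable_map_iff, HSpace.measure,
    HSpace.measurableEmbedding_coords.map_comap, HSpace.range_coords,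
    restrict_withDensity hmeas, integrable_withDensity_iff_integrable_smul' (by fun_prop)
      (Filter.Eventually.of_forall fun _ => ENNReal.ofReal_lt_top)]
  refine h.congr ?_
  filter_upwards [ae_restrict_mem hmeas] with x (hx : 0 < x.2)
  rw [ENNReal.toReal_ofReal (by positivity)]

/-- Quartic kernels are integrable against `1` and against the height. -/
theorem integrable_pointPair {k : ℝ → ℂ} (hk : Continuous k) (hq : IsQuartic k) (p : HSpace)
    {j : ℕ} (hj : j ≤ 1) :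
    Integrable (fun τ : HSpace => k (HSpace.coshDist p τ) * (τ.r : ℂ) ^ j) HSpace.measure := by
  obtain ⟨C, hC, hkC⟩ := hq
  have hp := p.r_pos
  refine integrable_hspace
    (G := fun x => k (argU (normSq (p.z - x.1)) p.r p.r x.2) * (x.2 : ℂ) ^ j) ?_
  have hset : {x : ℂ × ℝ | 0 < x.2} = (univ : Set ℂ) ×ˢ Ioi (0 : ℝ) := by ext; simp
  have h1 : Integrable (fun z : ℂ => ((p.r ^ 2 + ‖p.z - z‖ ^ 2) ^ 2)⁻¹) :=
    (integrable_inv_sq_norm_sq (E := ℂ) volume (by simp) hp).comp_sub_left p.z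
  have h2 := integrableOn_pow_div_sq hp (j := j + 1) (by omega)
  have h3 := (h1.const_mul (C * (2 * p.r) ^ 4)).mul_prod h2
  rw [hset, IntegrableOn, Measure.volume_eq_prod, ← Measure.prod_restrict, Measure.restrict_univ]
  refine h3.mono' ?_ ?_
  · rw [← Measure.restrict_univ (μ := (volume : Measure ℂ)), Measure.prod_restrict,
      ← Measure.volume_eq_prod]
    refine ContinuousOn.aestronglyMeasurable ?_ (MeasurableSet.univ.prod measurableSet_Ioi)
    refine ContinuousOn.smul (ContinuousOn.inv₀ (f := fun x : ℂ × ℝ => x.2 ^ 3) (by fun_prop)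
      fun x hx => ?_) ?_
    · exact pow_ne_zero 3 (ne_of_gt (by simpa using hx))
    refine ContinuousOn.mul (hk.comp_continuousOn ?_) (by fun_prop)
    exact ContinuousOn.div (by fun_prop) (by fun_prop) fun x hx => by
      have : 0 < x.2 := by simpa using hx
      positivity
  · rw [← Measure.restrict_univ (μ := (volume : Measure ℂ)), Measure.prod_restrict]
    filter_upwards [ae_restrict_mem (MeasurableSet.univ.prod measurableSet_Ioi)] with x hx
    have hr : 0 < x.2 := by simpa using hx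
    rw [norm_smul, norm_mul, norm_pow, norm_real, Real.norm_of_nonneg hr.le,
      Real.norm_of_nonneg (by positivity)]
    refine (mul_le_mul_of_nonneg_left (mul_le_mul_of_nonneg_right (norm_le_of_isQuartic hC hkC
      (normSq_nonneg _) hp le_rfl hr) (by positivity)) (by positivity)).trans_eq ?_
    rw [← normSq_eq_norm_sq, pow_succ]
    field_simp
    ring

end Fermat.Agent.LT.Arch
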