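import Fermat.Agent.LT.Adelic.Space
import Fermat.Agent.LT.Arch.Bounds

/-!
# Spherical eigenfunctions against kernels of quartic decay
-/

set_option autoImplicit false

noncomputable section

open MeasureTheory Filter Topology Fermat.Agent.LT.Adelic NumberField IsDedekindDomain

namespace Fermat.Agent.LT.Arch

theorem opensMeasurableSpace_hspace : OpensMeasurableSpace HSpace := by
  have : BorelSpace HSpace :=
    ⟨(congrArg (MeasurableSpace.comap HSpace.coords) BorelSpace.measurable_eq).trans borel_comap.symm⟩
  infer_instance

theorem continuous_coords : Continuous HSpace.coords := continuous_induced_dom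

theorem continuous_hspace_r : Continuous fun τ : HSpace => τ.r :=
  continuous_snd.comp continuous_coords

theorem continuous_coshDist (p : HSpace) : Continuous fun τ : HSpace => HSpace.coshDist p τ := by
  refine Continuous.div ?_ ?_ fun τ => ?_
  · exact ((Complex.continuous_normSq.comp (continuous_const.sub
      (continuous_fst.comp continuous_coords))).add continuous_const).add
      (continuous_hspace_r.pow 2)
  · exact continuous_const.mul continuous_hspace_r
  · have := p.r_pos; have := τ.r_pos; positivity

/-- A continuous cut-off. -/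
def cutoff (n : ℕ) (u : ℝ) : ℝ := max 0 (min 1 ((n : ℝ) + 2 - |u|))

theorem cutoff_le_one (n : ℕ) (u : ℝ) : |cutoff n u| ≤ 1 := by
  rw [cutoff, abs_of_nonneg (le_max_left _ _)]
  exact max_le zero_le_one (min_le_left _ _)

theorem hasCompactSupport_cutoff (n : ℕ) (k : ℝ → ℂ) :
    HasCompactSupport fun u => (cutoff n u : ℂ) * k u := by
  refine HasCompactSupport.of_support_subset_isCompact (isCompact_Icc (a := -((n : ℝ) + 2))
    (b := (n : ℝ) + 2)) fun u hu => ?_
  by_contra h
  refine hu ?_
  have : (n : ℝ) + 2 - |u| ≤ 0 := by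
    rw [Set.mem_Icc, ← abs_le, not_le] at h; linarith
  simp [cutoff, max_eq_left ((min_le_right _ _).trans this)]

theorem tendsto_cutoff (u : ℝ) : Tendsto (fun n => cutoff n u) atTop (𝓝 1) := by
  refine tendsto_const_nhds.congr' ?_
  filter_upwards [eventually_ge_atTop ⌈|u|⌉₊] with n hn
  have := Nat.ceil_le.1 hn
  rw [cutoff, min_eq_left (by linarith), max_eq_right zero_le_one]

variable {K : Type*} [Field K] [NumberField K] {ι : Type*} [Fintype ι] [DecidableEq ι]
  {Φ : Frame K ι} {U : Subgroup (GfK K)}

omit [Fintype ι] in
theorem continuous_comp_update {φ : Space Φ U → ℂ}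
    (hφ : ∀ y : Yf U, Continuous fun τ : ι → HSpace => φ (Space.mk τ y)) (i : ι) (x : Space Φ U) :
    Continuous fun τ : HSpace => φ (x.update i τ) :=
  (hφ x.fin).comp (continuous_const.update i continuous_id)

/-- A spherical eigenfunction is an eigenfunction of every kernel of quartic decay. -/
theorem pointPairOp_eq_of_isQuartic {φ : Space Φ U → ℂ} (hs : IsSphericalEigen φ 0)
    (hb : ∃ C : ℝ, ∀ x, ‖φ x‖ ≤ C)
    (hφ : ∀ y : Yf U, Continuous fun τ : ι → HSpace => φ (Space.mk τ y))
    {k : ℝ → ℂ} (hk : Continuous k) (hq : IsQuartic k) (i : ι) (x : Space Φ U) :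
    Integrable (fun τ => k (HSpace.coshDist (x.pt i) τ) * φ (x.update i τ)) HSpace.measure ∧
      pointPairOp k i φ x = sphTransform k 0 * φ x := by
  have := opensMeasurableSpace_hspace
  obtain ⟨C, hC⟩ := hb
  set p := x.pt i
  set F : HSpace → ℂ := fun τ => φ (x.update i τ)
  have hF : Continuous F := continuous_comp_update hφ i x
  have hI0 := integrable_pointPair hk hq p (j := 0) zero_le_one
  simp only [pow_zero, mul_one] at hI0
  have hI1 := integrable_pointPair hk hq HSpace.base (j := 1) le_rfl
  simp only [pow_one] at hI1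
  have hint : Integrable (fun τ => k (HSpace.coshDist p τ) * F τ) HSpace.measure :=
    hI0.mul_bdd hF.aestronglyMeasurable (Filter.Eventually.of_forall fun τ => hC _)
  refine ⟨hint, ?_⟩
  set kn : ℕ → ℝ → ℂ := fun n u => (cutoff n u : ℂ) * k u
  have hkn : ∀ n, Continuous (kn n) := fun n => by
    simp only [kn, cutoff]; fun_prop
  have hle : ∀ n u, ‖kn n u‖ ≤ ‖k u‖ := fun n u => by
    rw [norm_mul, Complex.norm_real]
    exact mul_le_of_le_one_left (norm_nonneg _) (cutoff_le_one n u)
  have hlim : ∀ u, Tendsto (fun n => kn n u) atTop (𝓝 (k u)) := fun u => by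
    simpa [kn] using ((Complex.continuous_ofReal.tendsto _).comp (tendsto_cutoff u)).mul_const (k u)
  have h1 : Tendsto (fun n => pointPairOp (kn n) i φ x) atTop (𝓝 (pointPairOp k i φ x)) :=
    tendsto_integral_of_dominated_convergence
      (fun τ => ‖k (HSpace.coshDist p τ) * F τ‖)
      (fun n => (((hkn n).comp (continuous_coshDist p)).mul hF).aestronglyMeasurable) hint.norm
      (fun n => Filter.Eventually.of_forall fun τ => by
        rw [norm_mul (kn n _), norm_mul (k _)]
        exact mul_le_mul_of_nonneg_right (hle n _) (norm_nonneg _))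
      (Filter.Eventually.of_forall fun τ => (hlim _).mul_const _)
  have h2 : Tendsto (fun n => sphTransform (kn n) 0) atTop (𝓝 (sphTransform k 0)) := by
    simp only [sphTransform, add_zero, Complex.cpow_one]
    exact tendsto_integral_of_dominated_convergence
      (fun τ => ‖k (HSpace.coshDist HSpace.base τ) * (τ.r : ℂ)‖)
      (fun n => (((hkn n).comp (continuous_coshDist _)).mul
        (Complex.continuous_ofReal.comp continuous_hspace_r)).aestronglyMeasurable) hI1.norm
      (fun n => Filter.Eventually.of_forall fun τ => by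
        rw [norm_mul (kn n _), norm_mul (k _)]
        exact mul_le_mul_of_nonneg_right (hle n _) (norm_nonneg _))
      (Filter.Eventually.of_forall fun τ => (hlim _).mul_const _)
  refine tendsto_nhds_unique h1 ((h2.mul_const (φ x)).congr fun n => ?_)
  exact (hs (kn n) (hkn n) (hasCompactSupport_cutoff n k) i x).symm

end Fermat.Agent.LT.Arch
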