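import Fermat.Agent.LT.Adelic.Space
import Fermat.Agent.LT.Aleph.Horospherical
import Fermat.Agent.LT.Arch.Bounds
import Fermat.Agent.LT.WeightOne.Series
import Mathlib.Analysis.SpecialFunctions.Gaussian.GaussianIntegral

/-!
# The Gaussian kernel and the plane kernel: spherical transforms at `0`

`sphTransform (exp (-a (u² - 1))) 0 = π √(π/a) eᵃ E₁(a)` and, for the plane kernel
`(2 a u² - 1) exp (-a (u² - 1)) / (2π)`, `√(π/a)`.
-/

set_option autoImplicit false

noncomputable section

open MeasureTheory Set Filter Topology Real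
open scoped Real

namespace Fermat.Agent.LT.Arch

open Adelic WeightOne

/-- The Gaussian kernel. -/
def gaussKer (a u : ℝ) : ℝ := exp (-(a * (u ^ 2 - 1)))

/-- The kernel whose integral over a plane is Gaussian in the distance to the plane. -/
def planeKer (a u : ℝ) : ℝ := (2 * a * u ^ 2 - 1) * exp (-(a * (u ^ 2 - 1))) / (2 * π)

theorem continuous_gaussKer (a : ℝ) : Continuous (gaussKer a) := by unfold gaussKer; fun_prop

theorem continuous_planeKer (a : ℝ) : Continuous (planeKer a) := by unfold planeKer; fun_prop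

theorem gaussKer_le {a : ℝ} (ha : 0 < a) {u : ℝ} (hu : 1 ≤ u) (n : ℕ) :
    gaussKer a u ≤ exp a * n.factorial / a ^ n / u ^ (2 * n) := by
  have h := Real.pow_div_factorial_le_exp (x := a * u ^ 2) (by positivity) n
  rw [gaussKer, show -(a * (u ^ 2 - 1)) = a + -(a * u ^ 2) by ring, exp_add, exp_neg,
    pow_mul, div_div, ← mul_pow, mul_div_assoc]
  refine mul_le_mul_of_nonneg_left ?_ (exp_pos a).le
  rw [inv_le_comm₀ (exp_pos _) (by positivity), inv_div]
  exact h

theorem isQuartic_gaussKer {a : ℝ} (ha : 0 < a) : IsQuartic fun u => (gaussKer a u : ℂ) := by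
  refine ⟨exp a * (2 : ℕ).factorial / a ^ 2, by positivity, fun u hu => ?_⟩
  rw [Complex.norm_real, norm_of_nonneg (show 0 ≤ gaussKer a u from (exp_pos _).le)]
  exact gaussKer_le ha hu 2

theorem isQuartic_planeKer {a : ℝ} (ha : 0 < a) : IsQuartic fun u => (planeKer a u : ℂ) := by
  set D := exp a * (3 : ℕ).factorial / a ^ 3
  refine ⟨(2 * a + 1) * D / (2 * π), by positivity, fun u hu => ?_⟩
  rw [Complex.norm_real, planeKer, norm_div, norm_mul, norm_of_nonneg (exp_pos _).le,
    norm_of_nonneg (show (0 : ℝ) ≤ 2 * π by positivity), div_right_comm _ (2 * π)]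
  refine div_le_div_of_nonneg_right ?_ (by positivity)
  have h1 : |2 * a * u ^ 2 - 1| ≤ (2 * a + 1) * u ^ 2 := by
    rw [abs_le]; constructor <;> nlinarith [mul_le_mul hu hu zero_le_one (by linarith)]
  have h2 := gaussKer_le ha hu 3
  calc ‖2 * a * u ^ 2 - 1‖ * exp (-(a * (u ^ 2 - 1)))
      ≤ (2 * a + 1) * u ^ 2 * (D / u ^ (2 * 3)) :=
        mul_le_mul h1 h2 (exp_pos _).le (by positivity)
    _ = (2 * a + 1) * D / u ^ 4 := by field_simp; ring

/-- `∫_b^∞ k (1 + s/2) = 2 ∫_{1+b/2}^∞ k`. -/
theorem integral_Ioi_half (k : ℝ → ℂ) (b : ℝ) :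
    ∫ s in Ioi b, k (1 + s / 2) = 2 * ∫ u in Ioi (1 + b / 2), k u := by
  have h1 := integral_comp_mul_left_Ioi (fun x => k (1 + x)) b (by norm_num : (0 : ℝ) < 1 / 2)
  have h2 := (measurePreserving_add_right volume (1 : ℝ)).setIntegral_preimage_emb
    (MeasurableEquiv.addRight (1 : ℝ)).measurableEmbedding k (Ioi (1 + b / 2))
  have h3 : (fun x : ℝ => x + 1) ⁻¹' Ioi (1 + b / 2) = Ioi (1 / 2 * b) := by
    ext x; constructor <;> intro hx <;> simp only [mem_preimage, mem_Ioi] at hx ⊢ <;> linarith
  rw [h3] at h2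
  rw [← h2]
  simp only [one_div, inv_inv, Complex.real_smul] at h1
  simp only [add_comm _ (1 : ℝ)]
  have e : (fun s => k (1 + s / 2)) = fun s => k (1 + 2⁻¹ * s) := by
    funext s; rw [div_eq_inv_mul]
  rw [e, h1]
  norm_num

theorem image_mul_exp {c : ℝ} (hc : 0 < c) : (fun t => c * exp t) '' univ = Ioi (0 : ℝ) := by
  ext r
  simp only [image_univ, mem_range, mem_Ioi]
  constructor
  · rintro ⟨t, rfl⟩; positivity
  · intro hr; exact ⟨log (r / c), by rw [exp_log (by positivity)]; field_simp⟩

theorem integral_Ioi_eq_integral_exp {c : ℝ} (hc : 0 < c) (F : ℝ → ℂ) :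
    ∫ r in Ioi (0 : ℝ), F r = ∫ t : ℝ, (c * exp t) • F (c * exp t) := by
  rw [← image_mul_exp hc, integral_image_eq_integral_abs_deriv_smul MeasurableSet.univ
    (fun t _ => ((hasDerivAt_exp t).const_mul c).hasDerivWithinAt)
    (fun t _ t' _ h => exp_injective (mul_left_cancel₀ hc.ne' h)), setIntegral_univ]
  simp [abs_of_pos hc]

/-- The spherical transform at `0` in Abel form. -/
theorem sphTransform_zero_eq {k : ℝ → ℂ} (hk : Continuous k) (hq : IsQuartic k) :
    sphTransform k 0 = 2 * (π : ℂ) * ∫ t : ℝ, ∫ u in Ioi (cosh t), k u := by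
  have hint := integrable_pointPair hk hq HSpace.base (j := 1) le_rfl
  simp only [pow_one] at hint
  rw [sphTransform]
  simp only [add_zero, Complex.cpow_one]
  set G : ℂ × ℝ → ℂ := fun x => k (argU (Complex.normSq (0 - x.1)) 1 1 x.2) * (x.2 : ℂ) with hG
  rw [show (fun τ : HSpace => k (HSpace.coshDist HSpace.base τ) * (τ.r : ℂ)) =
    fun τ => G τ.coords from rfl] at hint ⊢
  rw [Aleph.integral_measure_coords]
  have hset : {x : ℂ × ℝ | 0 < x.2} = (univ : Set ℂ) ×ˢ Ioi (0 : ℝ) := by ext; simp
  have hint' : IntegrableOn (fun x => (x.2 ^ 3)⁻¹ • G x) {x : ℂ × ℝ | 0 < x.2} := by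
    have hmeas : MeasurableSet {x : ℂ × ℝ | 0 < x.2} :=
      (isOpen_lt continuous_const continuous_snd).measurableSet
    rw [show (fun τ : HSpace => G τ.coords) = G ∘ HSpace.coords from rfl,
      ← HSpace.measurableEmbedding_coords.integrable_map_iff, HSpace.measure,
      HSpace.measurableEmbedding_coords.map_comap, HSpace.range_coords,
      restrict_withDensity hmeas, integrable_withDensity_iff_integrable_smul' (by fun_prop)
        (Filter.Eventually.of_forall fun _ => ENNReal.ofReal_lt_top)] at hint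
    refine hint.congr ?_
    filter_upwards [ae_restrict_mem hmeas] with x (hx : 0 < x.2)
    rw [ENNReal.toReal_ofReal (by positivity)]
  rw [hset] at hint' ⊢
  rw [Measure.volume_eq_prod, ← setIntegral_prod_swap,
    setIntegral_prod _ (by rw [← Measure.volume_eq_prod] at *; exact hint'.swap)]
  simp only [Prod.swap_prod_mk, setIntegral_univ, hG]
  have hinner : ∀ r ∈ Ioi (0 : ℝ), (∫ z : ℂ, (r ^ 3)⁻¹ •
      (k (argU (Complex.normSq (0 - z)) 1 1 r) * (r : ℂ))) =
      r⁻¹ • (2 * (π : ℂ) * ∫ u in Ioi (cosh (log r)), k u) := by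
    intro r (hr : 0 < r)
    rw [integral_smul, integral_mul_const]
    have e1 : (fun z : ℂ => k (argU (Complex.normSq (0 - z)) 1 1 r)) =
        fun z => (fun s => k (1 + s / 2)) ((‖z‖ ^ 2 + (r - 1) ^ 2) / r) := by
      funext z
      simp only [argU, zero_sub, Complex.normSq_eq_norm_sq, norm_neg]
      congr 1
      field_simp
      ring
    rw [e1, Aleph.integral_norm_sq_comp (fun s => k (1 + s / 2)) hr, integral_Ioi_half,
      cosh_log hr, show 1 + (r - 1) ^ 2 / r / 2 = (r + r⁻¹) / 2 by field_simp; ring,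
      Complex.real_smul, Complex.real_smul]
    have : (r : ℂ) ≠ 0 := Complex.ofReal_ne_zero.2 hr.ne'
    push_cast
    field_simp
  rw [setIntegral_congr_fun measurableSet_Ioi hinner, integral_Ioi_eq_integral_exp one_pos,
    ← integral_const_mul]
  refine integral_congr_ae (Filter.Eventually.of_forall fun t => ?_)
  simp only [one_mul, log_exp, smul_smul, mul_inv_cancel₀ (exp_ne_zero t), one_smul]

theorem integral_cosh_mul_gauss {b : ℝ} (hb : 0 < b) :
    Integrable (fun t : ℝ => cosh t * exp (-(b * sinh t ^ 2))) ∧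
      ∫ t : ℝ, cosh t * exp (-(b * sinh t ^ 2)) = √(π / b) := by
  have himg : sinh '' univ = univ := by rw [image_univ]; exact sinh_surjective.range_eq
  have h1 := integrableOn_image_iff_integrableOn_abs_deriv_smul MeasurableSet.univ
    (fun t _ => (hasDerivAt_sinh t).hasDerivWithinAt) sinh_injective.injOn
    (fun v : ℝ => exp (-b * v ^ 2))
  have h2 := integral_image_eq_integral_abs_deriv_smul MeasurableSet.univ
    (fun t _ => (hasDerivAt_sinh t).hasDerivWithinAt) sinh_injective.injOn
    (fun v : ℝ => exp (-b * v ^ 2))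
  simp only [himg, integrableOn_univ, setIntegral_univ, abs_of_pos (cosh_pos _), smul_eq_mul,
    integral_gaussian, neg_mul] at h1 h2
  exact ⟨h1.1 (by simpa using integrable_exp_neg_mul_sq hb),
    h2.symm.trans (by simpa using integral_gaussian b)⟩

theorem integral_exp_div_eq_expInt {a : ℝ} (ha : 0 < a) :
    IntegrableOn (fun w => exp (-(a * w ^ 2)) / w) (Ioi 1) ∧
      ∫ w in Ioi (1 : ℝ), exp (-(a * w ^ 2)) / w = expInt a / 2 := by
  have himg : (fun w => a * w ^ 2) '' Ioi 1 = Ioi a := by
    ext x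
    constructor
    · rintro ⟨w, hw : 1 < w, rfl⟩
      exact lt_mul_of_one_lt_right ha (one_lt_pow₀ hw two_ne_zero)
    · intro (hx : a < x)
      have : 1 < x / a := (one_lt_div ha).2 hx
      exact ⟨√(x / a), lt_sqrt_of_sq_lt (by linarith), by
        simp only [sq_sqrt (by linarith : (0 : ℝ) ≤ x / a)]; field_simp⟩
  have hd : ∀ w ∈ Ioi (1 : ℝ), HasDerivWithinAt (fun w => a * w ^ 2) (2 * a * w) (Ioi 1) w :=
    fun w _ => (((hasDerivAt_pow 2 w).const_mul a).congr_deriv (by ring)).hasDerivWithinAt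
  have hinj : InjOn (fun w : ℝ => a * w ^ 2) (Ioi 1) := fun x (hx : 1 < x) y (hy : 1 < y) h =>
    (pow_left_inj₀ (by linarith) (by linarith) two_ne_zero).1 (mul_left_cancel₀ ha.ne' h)
  have key : EqOn (fun w => |2 * a * w| • (exp (-(a * w ^ 2)) / (a * w ^ 2)))
      (fun w => 2 * (exp (-(a * w ^ 2)) / w)) (Ioi 1) := fun w (hw : 1 < w) => by
    have : 0 < w := one_pos.trans hw
    simp only [smul_eq_mul, abs_of_pos (show 0 < 2 * a * w by positivity)]
    field_simp
  have h1 := integrableOn_image_iff_integrableOn_abs_deriv_smul measurableSet_Ioi hd hinj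
    (fun x => exp (-x) / x)
  have h2 := integral_image_eq_integral_abs_deriv_smul measurableSet_Ioi hd hinj
    (fun x => exp (-x) / x)
  rw [himg] at h1 h2
  have h3 := (h1.1 (integrableOn_exp_neg_div ha)).congr_fun key measurableSet_Ioi
  refine ⟨by simpa [IntegrableOn] using (h3.const_mul 2⁻¹), ?_⟩
  rw [setIntegral_congr_fun measurableSet_Ioi key, integral_const_mul] at h2
  rw [expInt, h2]
  ring

theorem integral_Ioi_planeKer {a c : ℝ} (ha : 0 < a) (hc : 1 ≤ c) :
    IntegrableOn (planeKer a) (Ioi c) ∧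
      ∫ u in Ioi c, planeKer a u = c * exp (-(a * (c ^ 2 - 1))) / (2 * π) := by
  have hd : ∀ u ∈ Ici c, HasDerivAt (fun u => -(u * exp (-(a * (u ^ 2 - 1))) / (2 * π)))
      (planeKer a u) u := fun u _ => by
    refine ((((hasDerivAt_id u).mul ((((hasDerivAt_pow 2 u).sub_const 1).const_mul a).neg.exp)
      ).div_const (2 * π)).neg).congr_deriv ?_
    simp only [id, planeKer, Pi.neg_apply]
    push_cast
    ring
  have hint : IntegrableOn (planeKer a) (Ioi c) := by
    obtain ⟨C, hC, hb⟩ := isQuartic_planeKer ha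
    refine ((integrableOn_Ioi_rpow_of_lt (by norm_num : (-4 : ℝ) < -1)
      (zero_lt_one.trans_le hc)).const_mul C).mono'
      (continuous_planeKer a).aestronglyMeasurable ?_
    filter_upwards [ae_restrict_mem measurableSet_Ioi] with u (hu : c < u)
    have h := hb u (hc.trans hu.le)
    rw [Complex.norm_real] at h
    rw [show (-4 : ℝ) = -((4 : ℕ) : ℝ) by norm_num, rpow_neg (by linarith), rpow_natCast,
      ← div_eq_mul_inv]
    exact h
  have hlim : Tendsto (fun u => -(u * exp (-(a * (u ^ 2 - 1))) / (2 * π))) atTop (𝓝 0) := by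
    refine squeeze_zero_norm' ?_ (tendsto_inv_atTop_zero.const_mul
      (exp a * (1 : ℕ).factorial / a ^ 1 / (2 * π)) |>.trans (by simp))
    filter_upwards [eventually_ge_atTop (1 : ℝ)] with u hu
    rw [norm_neg, norm_div, norm_mul, norm_of_nonneg (exp_pos _).le,
      norm_of_nonneg (show (0 : ℝ) ≤ 2 * π by positivity),
      norm_of_nonneg (show (0 : ℝ) ≤ u by linarith)]
    refine (div_le_div_of_nonneg_right (mul_le_mul_of_nonneg_left (gaussKer_le ha hu 1)
      (by linarith)) (by positivity)).trans_eq ?_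
    field_simp
  refine ⟨hint, ?_⟩
  rw [integral_Ioi_of_hasDerivAt_of_tendsto' hd hint hlim]
  ring

/-- The transform of the plane kernel. -/
theorem sphTransform_planeKer {a : ℝ} (ha : 0 < a) :
    sphTransform (fun u => (planeKer a u : ℂ)) 0 = (√(π / a) : ℂ) := by
  rw [sphTransform_zero_eq (k := fun u => (planeKer a u : ℂ))
    (Complex.continuous_ofReal.comp (continuous_planeKer a))
    (isQuartic_planeKer ha)]
  simp only [integral_complex_ofReal, (integral_Ioi_planeKer ha (one_le_cosh _)).2]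
  rw [integral_div]
  have : ∀ t : ℝ, cosh t ^ 2 - 1 = sinh t ^ 2 := fun t => by rw [cosh_sq]; ring
  simp only [this, (integral_cosh_mul_gauss ha).2]
  push_cast
  field_simp

/-- The transform of the Gaussian kernel. -/
theorem sphTransform_gaussKer {a : ℝ} (ha : 0 < a) :
    sphTransform (fun u => (gaussKer a u : ℂ)) 0 = (π * √(π / a) * exp a * expInt a : ℝ) := by
  rw [sphTransform_zero_eq (k := fun u => (gaussKer a u : ℂ))
    (Complex.continuous_ofReal.comp (continuous_gaussKer a))
    (isQuartic_gaussKer ha)]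
  simp only [integral_complex_ofReal]
  set H : ℝ → ℝ → ℝ := fun t w => cosh t * gaussKer a (cosh t * w) with hH
  have hscale : ∀ t, ∫ u in Ioi (cosh t), gaussKer a u = ∫ w in Ioi (1 : ℝ), H t w := fun t => by
    have h := integral_comp_mul_left_Ioi (gaussKer a) 1 (cosh_pos t)
    rw [mul_one, smul_eq_mul] at h
    simp only [hH]
    rw [integral_const_mul, h, ← mul_assoc, mul_inv_cancel₀ (cosh_pos t).ne', one_mul]
  have hrow : ∀ w : ℝ, 1 < w → Integrable (fun t => H t w) ∧
      ∫ t, H t w = √(π / a) * exp a * (exp (-(a * w ^ 2)) / w) := by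
    intro w hw
    have hw0 : 0 < w := one_pos.trans hw
    have e : (fun t => H t w) =
        fun t => exp a * exp (-(a * w ^ 2)) * (cosh t * exp (-(a * w ^ 2 * sinh t ^ 2))) := by
      funext t
      simp only [hH, gaussKer]
      rw [mul_left_comm (exp a * _), ← exp_add, ← exp_add, mul_pow, cosh_sq]
      ring_nf
    obtain ⟨h1, h2⟩ := integral_cosh_mul_gauss (show 0 < a * w ^ 2 by positivity)
    refine ⟨e ▸ h1.const_mul _, ?_⟩
    rw [e, integral_const_mul, h2, sqrt_div pi_pos.le, sqrt_div pi_pos.le, sqrt_mul ha.le,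
      sqrt_sq hw0.le]
    field_simp
  obtain ⟨hw1, hw2⟩ := integral_exp_div_eq_expInt ha
  have hH' : Integrable (Function.uncurry H) (volume.prod (volume.restrict (Ioi 1))) := by
    refine (integrable_prod_iff' ?_).2 ⟨?_, ?_⟩
    · exact (show Continuous (Function.uncurry H) by
        simp only [hH, gaussKer]; fun_prop).aestronglyMeasurable
    · filter_upwards [ae_restrict_mem measurableSet_Ioi] with w hw using (hrow w hw).1
    · refine (hw1.const_mul (√(π / a) * exp a)).congr ?_
      filter_upwards [ae_restrict_mem measurableSet_Ioi] with w hw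
      rw [← (hrow w hw).2]
      refine integral_congr_ae (Filter.Eventually.of_forall fun t => ?_)
      exact (norm_of_nonneg (mul_nonneg (cosh_pos t).le (exp_pos _).le)).symm
  simp only [hscale]
  rw [integral_integral_swap hH', setIntegral_congr_fun measurableSet_Ioi
    (fun w hw => (hrow w hw).2), integral_const_mul, hw2]
  push_cast
  ring

end Fermat.Agent.LT.Arch
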