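import Fermat.Agent.LT.Arch.Kernels

/-!
# The integral of the plane kernel over a plane

The plane `Im z = 0`, with the measure `dx dr / r²`; the distance `t` of `q` to it satisfies
`sinh t = |Im q.z| / q.r`.
-/

set_option autoImplicit false

noncomputable section

open MeasureTheory Set Filter Topology Real
open scoped Real

namespace Fermat.Agent.LT.Arch

open Adelic

/-- `cosh` of the distance from `q` to the point `(x, r)` of the plane. -/
def planeArg (q : HSpace) (x r : ℝ) : ℝ :=
  argU ((q.z.re - x) ^ 2) √(q.z.im ^ 2 + q.r ^ 2) q.r r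

theorem planeArg_eq (q : HSpace) (x r : ℝ) (hr : 0 < r) :
    planeArg q x r = HSpace.coshDist q ⟨(x : ℂ), r, hr⟩ := by
  rw [planeArg, argU, HSpace.coshDist, sq_sqrt (by positivity), Complex.normSq_apply]
  simp only [Complex.sub_re, Complex.sub_im, Complex.ofReal_re, Complex.ofReal_im, sub_zero]
  ring

theorem integrableOn_plane {k : ℝ → ℂ} (hk : Continuous k) (hq : IsQuartic k) (q : HSpace) :
    IntegrableOn (fun x : ℝ × ℝ => (x.2 ^ 2)⁻¹ • k (planeArg q x.1 x.2))
      ((univ : Set ℝ) ×ˢ Ioi 0) := by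
  obtain ⟨C, hC, hkC⟩ := hq
  set R := √(q.z.im ^ 2 + q.r ^ 2) with hR
  have hqR : q.r ≤ R := le_sqrt_of_sq_le (by nlinarith [sq_nonneg q.z.im])
  have hR0 : 0 < R := q.r_pos.trans_le hqR
  have h1 : Integrable (fun x : ℝ => ((R ^ 2 + ‖q.z.re - x‖ ^ 2) ^ 2)⁻¹) :=
    (integrable_inv_sq_norm_sq (E := ℝ) volume (by simp) hR0).comp_sub_left q.z.re
  have h3 := (h1.const_mul (C * (2 * q.r) ^ 4)).mul_prod (integrableOn_pow_div_sq hR0 (j := 2) le_rfl)
  rw [IntegrableOn, Measure.volume_eq_prod, ← Measure.prod_restrict, Measure.restrict_univ]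
  refine h3.mono' ?_ ?_
  · rw [show (volume : Measure ℝ).prod ((volume : Measure ℝ).restrict (Ioi 0)) =
      ((volume : Measure ℝ).prod (volume : Measure ℝ)).restrict ((univ : Set ℝ) ×ˢ Ioi 0) by
        rw [← Measure.prod_restrict, Measure.restrict_univ],
      ← Measure.volume_eq_prod]
    refine ContinuousOn.aestronglyMeasurable ?_ (MeasurableSet.univ.prod measurableSet_Ioi)
    refine ContinuousOn.smul (ContinuousOn.inv₀ (f := fun x : ℝ × ℝ => x.2 ^ 2) (by fun_prop)
      fun x hx => ?_) (hk.comp_continuousOn ?_)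
    · exact pow_ne_zero 2 (ne_of_gt (by simpa using hx))
    · exact ContinuousOn.div (by fun_prop) (by fun_prop) fun x hx => by
        have : 0 < x.2 := by simpa using hx
        have := q.r_pos
        positivity
  · rw [show (volume : Measure ℝ).prod ((volume : Measure ℝ).restrict (Ioi 0)) =
      ((volume : Measure ℝ).prod (volume : Measure ℝ)).restrict ((univ : Set ℝ) ×ˢ Ioi 0) by
        rw [← Measure.prod_restrict, Measure.restrict_univ]]
    filter_upwards [ae_restrict_mem (MeasurableSet.univ.prod measurableSet_Ioi)] with x hx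
    have hr : 0 < x.2 := by simpa using hx
    rw [norm_smul, norm_of_nonneg (by positivity)]
    refine (mul_le_mul_of_nonneg_left (norm_le_of_isQuartic hC hkC (sq_nonneg _) q.r_pos hqR hr)
      (by positivity)).trans_eq ?_
    rw [norm_eq_abs, sq_abs]
    field_simp

/-- `∫∫ F ((x² + r² + 1) / (2 r)) dx dr / r² = 2π ∫_1^∞ F`, shifted and scaled. -/
theorem integral_plane {k : ℝ → ℂ} (hk : Continuous k) (hq : IsQuartic k) (q : HSpace) :
    ∫ x in (univ : Set ℝ) ×ˢ Ioi (0 : ℝ), (x.2 ^ 2)⁻¹ • k (planeArg q x.1 x.2) =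
      2 * (π : ℂ) *
        ∫ u in Ioi (1 : ℝ), k (√(q.z.im ^ 2 + q.r ^ 2) / q.r * u) := by
  have hint := integrableOn_plane hk hq q
  set R := √(q.z.im ^ 2 + q.r ^ 2) with hR
  set c := R / q.r with hc
  have hqR : q.r ≤ R := le_sqrt_of_sq_le (by nlinarith [sq_nonneg q.z.im])
  have hR0 : 0 < R := q.r_pos.trans_le hqR
  have hc0 : 0 < c := div_pos hR0 q.r_pos
  set F : ℝ → ℂ := fun v => k (c * v) with hF
  set H : ℝ → ℂ := fun s => ∫ w : ℝ, F (cosh s + w ^ 2) with hH
  -- iterate
  rw [Measure.volume_eq_prod, ← setIntegral_prod_swap,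
    setIntegral_prod _ (by rw [← Measure.volume_eq_prod] at *; exact hint.swap)]
  simp only [Prod.swap_prod_mk, setIntegral_univ]
  have hB : ∀ s : ℝ, (∫ x : ℝ, ((R * exp s) ^ 2)⁻¹ • k (planeArg q x (R * exp s))) =
      (√2 * exp (-(s / 2)) / (R * exp s)) • H s := by
    intro s
    rw [integral_smul]
    set m := R * √2 * exp (s / 2) with hm
    have hm0 : 0 < m := by positivity
    have e2 : exp (s / 2) ^ 2 = exp s := by rw [← exp_nat_mul]; congr 1; push_cast; ring
    have e1 : (fun x : ℝ => k (planeArg q x (R * exp s))) =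
        fun x => (fun w => F (cosh s + w ^ 2)) (m⁻¹ * (q.z.re - x)) := by
      funext x
      simp only [hF, hc, planeArg, argU, ← hR]
      congr 1
      simp only [hm, mul_pow, inv_pow, e2, sq_sqrt two_pos.le, cosh_eq, exp_neg]
      have := q.r_pos
      field_simp
      ring
    rw [e1, integral_sub_left_eq_self (fun x => (fun w => F (cosh s + w ^ 2)) (m⁻¹ * x)) volume
      q.z.re, Measure.integral_comp_mul_left (fun w => F (cosh s + w ^ 2)) m⁻¹, inv_inv,
      abs_of_pos hm0, smul_smul, hH]
    congr 1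
    have e3 : exp (-(s / 2)) = (exp (s / 2))⁻¹ := exp_neg _
    rw [hm, e3]
    field_simp
    rw [e2]
  have hA := integral_Ioi_eq_integral_exp hR0
    (fun r => ∫ x : ℝ, (r ^ 2)⁻¹ • k (planeArg q x r))
  have hAI : Integrable fun s => (√2 * exp (-(s / 2))) • H s := by
    have h1 : IntegrableOn (fun r => ∫ x : ℝ, (r ^ 2)⁻¹ • k (planeArg q x r)) (Ioi 0) := by
      have := hint
      rw [IntegrableOn, Measure.volume_eq_prod, ← Measure.prod_restrict,
        Measure.restrict_univ] at this
      exact this.integral_prod_right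
    rw [← image_mul_exp hR0, integrableOn_image_iff_integrableOn_abs_deriv_smul MeasurableSet.univ
      (fun t _ => ((hasDerivAt_exp t).const_mul R).hasDerivWithinAt)
      (fun t _ t' _ h => exp_injective (mul_left_cancel₀ hR0.ne' h)), integrableOn_univ] at h1
    refine h1.congr (Filter.Eventually.of_forall fun s => ?_)
    simp only [hB, abs_of_pos (mul_pos hR0 (exp_pos s)), smul_smul]
    congr 1
    field_simp
  rw [hA]
  have e4 : ∀ s, (R * exp s) • ∫ x : ℝ, ((R * exp s) ^ 2)⁻¹ • k (planeArg q x (R * exp s)) =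
      (√2 * exp (-(s / 2))) • H s := fun s => by
    rw [hB, smul_smul]; congr 1; field_simp
  simp only [e4]
  have hsym : ∫ s, (√2 * exp (-(s / 2))) • H s = ∫ s, (√2 * cosh (s / 2)) • H s := by
    have hn : Integrable fun s => (√2 * exp (s / 2)) • H s := by
      refine hAI.comp_neg.congr (Filter.Eventually.of_forall fun s => ?_)
      simp [hH, neg_div]
    have h2 : ∫ s, (√2 * exp (s / 2)) • H s = ∫ s, (√2 * exp (-(s / 2))) • H s := by
      rw [← integral_neg_eq_self (fun s => (√2 * exp (-(s / 2))) • H s)]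
      simp [hH, neg_div]
    have h3 : (fun s => (√2 * cosh (s / 2)) • H s) = fun s =>
        (1 / 2 : ℝ) • ((√2 * exp (s / 2)) • H s + (√2 * exp (-(s / 2))) • H s) := by
      funext s
      rw [cosh_eq, ← add_smul, smul_smul]
      congr 1
      ring
    rw [h3, integral_smul, integral_add hn hAI, h2, ← two_smul ℝ, smul_smul]
    norm_num
  rw [hsym]
  -- substitution `v = √2 sinh (s/2)`
  have himg : (fun s => √2 * sinh (s / 2)) '' univ = univ := by
    rw [image_univ]
    refine eq_univ_of_forall fun v => ?_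
    obtain ⟨t, ht⟩ := sinh_surjective (v / √2)
    refine ⟨2 * t, ?_⟩
    show √2 * sinh (2 * t / 2) = v
    rw [show 2 * t / 2 = t by ring, ht]
    field_simp
  have hinj : InjOn (fun s => √2 * sinh (s / 2)) univ := fun x _ y _ h => by
    have := sinh_injective (mul_left_cancel₀ (by positivity) h)
    linarith
  have hd : ∀ s ∈ (univ : Set ℝ),
      HasDerivWithinAt (fun s => √2 * sinh (s / 2)) (√2 * (cosh (s / 2) * (1 / 2))) univ s :=
    fun s _ => (((hasDerivAt_id s).div_const 2).sinh.const_mul √2).hasDerivWithinAt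
  set G : ℝ → ℂ := fun v => ∫ w : ℝ, F (1 + v ^ 2 + w ^ 2) with hG
  have hGH : ∀ s, G (√2 * sinh (s / 2)) = H s := fun s => by
    simp only [hG, hH]
    congr 1
    funext w
    congr 2
    rw [mul_pow, sq_sqrt two_pos.le]
    have := cosh_two_mul (s / 2)
    rw [show 2 * (s / 2) = s by ring, cosh_sq] at this
    linarith
  have hsub := integral_image_eq_integral_abs_deriv_smul MeasurableSet.univ hd hinj G
  rw [himg, setIntegral_univ, setIntegral_univ] at hsub
  have e5 : ∫ s, (√2 * cosh (s / 2)) • H s = 2 * ∫ v, G v := by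
    rw [hsub, ← integral_const_mul]
    refine integral_congr_ae (Filter.Eventually.of_forall fun s => ?_)
    simp only [hGH, abs_of_pos (show (0 : ℝ) < √2 * (cosh (s / 2) * (1 / 2)) by positivity),
      Complex.real_smul]
    push_cast
    ring
  rw [e5]
  -- the plane as `ℂ`
  have hcpx : ∫ v, G v = ∫ z : ℂ, F (1 + ‖z‖ ^ 2) := by
    have hFint : Integrable fun z : ℂ => F (1 + ‖z‖ ^ 2) := by
      obtain ⟨C, hC, hkC⟩ := hq
      have hc1 : 1 ≤ c := (one_le_div q.r_pos).2 hqR
      refine ((integrable_inv_sq_norm_sq (E := ℂ) volume (by simp) one_pos).const_mul C).mono'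
        (by apply Continuous.aestronglyMeasurable; fun_prop) (Filter.Eventually.of_forall fun z => ?_)
      have h1 : 1 ≤ 1 + ‖z‖ ^ 2 := by nlinarith [sq_nonneg ‖z‖]
      refine (hkC _ (one_le_mul_of_one_le_of_one_le hc1 h1)).trans ?_
      rw [one_pow, div_eq_mul_inv]
      refine mul_le_mul_of_nonneg_left (inv_anti₀ (by positivity) ?_) hC
      refine (pow_le_pow_right₀ h1 (by norm_num : 2 ≤ 4)).trans (pow_le_pow_left₀ (by positivity) ?_ 4)
      exact le_mul_of_one_le_left (by positivity) hc1
    have hmp := Complex.volume_preserving_equiv_real_prod.symm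
    rw [← hmp.integral_comp' (fun z : ℂ => F (1 + ‖z‖ ^ 2))]
    have h2 := hFint
    rw [← hmp.integrable_comp_emb Complex.measurableEquivRealProd.symm.measurableEmbedding,
      Measure.volume_eq_prod] at h2
    simp only [Function.comp_def] at h2
    rw [Measure.volume_eq_prod, integral_prod _ h2]
    simp only [hG, Complex.sq_norm, Complex.normSq_apply, Complex.measurableEquivRealProd_symm_apply]
    refine integral_congr_ae (Filter.Eventually.of_forall fun v => ?_)
    refine integral_congr_ae (Filter.Eventually.of_forall fun w => ?_)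
    simp only [hF]
    congr 1
    ring
  rw [hcpx]
  have h6 := Aleph.integral_norm_sq_comp (fun t => F (1 + t)) one_pos 0
  simp only [add_zero, div_one, Complex.ofReal_one, mul_one] at h6
  rw [h6, show ∫ t in Ioi (0 : ℝ), F (1 + t) = ∫ u in Ioi (1 : ℝ), F u by
    have h7 := (measurePreserving_add_left volume (1 : ℝ)).setIntegral_preimage_emb
      (MeasurableEquiv.addLeft (1 : ℝ)).measurableEmbedding F (Ioi 1)
    simpa using h7]
  ring

/-- The plane integral of the plane kernel is Gaussian in the distance to the plane. -/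
theorem integral_plane_planeKer {a : ℝ} (ha : 0 < a) (q : HSpace) :
    ∫ x in (univ : Set ℝ) ×ˢ Ioi (0 : ℝ), (x.2 ^ 2)⁻¹ • (planeKer a (planeArg q x.1 x.2) : ℂ) =
      (exp (-(a * (q.z.im / q.r) ^ 2)) : ℝ) := by
  rw [integral_plane (k := fun u => (planeKer a u : ℂ))
    (Complex.continuous_ofReal.comp (continuous_planeKer a)) (isQuartic_planeKer ha)]
  set c := √(q.z.im ^ 2 + q.r ^ 2) / q.r with hc
  have hc1 : 1 ≤ c := (one_le_div q.r_pos).2 (le_sqrt_of_sq_le (by nlinarith [sq_nonneg q.z.im]))
  have h := integral_comp_mul_left_Ioi (planeKer a) 1 (one_pos.trans_le hc1)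
  rw [mul_one, smul_eq_mul, (integral_Ioi_planeKer ha hc1).2] at h
  rw [integral_complex_ofReal, h]
  have hc2 : c ^ 2 - 1 = (q.z.im / q.r) ^ 2 := by
    have := q.r_pos
    rw [hc, div_pow, sq_sqrt (by positivity)]
    field_simp
    ring
  rw [← hc2]
  have : (c : ℂ) ≠ 0 := Complex.ofReal_ne_zero.2 (one_pos.trans_le hc1).ne'
  push_cast
  field_simp

end Fermat.Agent.LT.Arch
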